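import Mathlib.Analysis.Analytic.OfScalars
import Mathlib.Analysis.Analytic.Uniqueness
import Mathlib.Analysis.Complex.CauchyIntegral
import Mathlib.Analysis.Complex.LocallyUniformLimit
import Mathlib.Analysis.Normed.Module.Ball.Pointwise
import Mathlib.Topology.Algebra.InfiniteSum.Real
import Mathlib.Tactic

/-!
# Hadamard's gap theorem

Mordell's proof: substitute `z = w ^ p (1 + w) / 2`. The polynomials `z ^ n k` become blocks without
common exponents, and a continuation across `1` would make the series in `w` converge beyond `1`.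
-/

set_option autoImplicit false

noncomputable section

open Finset Filter Topology Metric
open scoped NNReal ENNReal

namespace FA.HadamardGap

theorem expand {K : Type*} [Field K] (p n : ℕ) (x : K) :
    (x ^ p * ((1 + x) / 2)) ^ n =
      ∑ i : Fin (n + 1), (n.choose i : K) / 2 ^ n * x ^ (p * n + i) := by
  rw [Fin.sum_univ_eq_sum_range (fun i => (n.choose i : K) / 2 ^ n * x ^ (p * n + i)), mul_pow,
    div_pow, add_comm 1 x, add_pow, sum_div, mul_sum]
  refine sum_congr rfl fun i _ => ?_
  rw [one_pow, mul_one, pow_add, ← pow_mul]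
  ring

variable {n : ℕ → ℕ} {c : ℕ → ℂ}

/-- Continuation across `1` is impossible. -/
theorem no_continuation_one {p : ℕ} (hp : 0 < p)
    (hblock : ∀ j k, j < k → (p + 1) * n j < p * n k)
    (hconv : ∀ r : ℝ, 0 ≤ r → r < 1 → Summable fun k => ‖c k‖ * r ^ n k)
    (hdiv : ∀ r : ℝ, 1 < r → ¬Summable fun k => ‖c k‖ * r ^ n k)
    {δ : ℝ} (hδ : 0 < δ) {g : ℂ → ℂ} (hg : DifferentiableOn ℂ g (ball 1 δ))
    (hfg : ∀ z ∈ ball (1 : ℂ) δ, ‖z‖ < 1 → g z = ∑' k, c k * z ^ n k) : False := by
  classical
  set φ : ℂ → ℂ := fun w => w ^ p * ((1 + w) / 2) with hφ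
  set f : ℂ → ℂ := fun z => ∑' k, c k * z ^ n k with hf
  have hφd : Differentiable ℂ φ := by fun_prop
  have hfd : DifferentiableOn ℂ f (ball 0 1) := by
    intro z hz
    obtain ⟨r, hr1, hr2⟩ := exists_between (mem_ball_zero_iff.1 hz)
    have h : DifferentiableOn ℂ f (ball 0 r) :=
      Complex.differentiableOn_tsum_of_summable_norm (hconv r ((norm_nonneg z).trans hr1.le) hr2)
        (fun k => by fun_prop) isOpen_ball fun k w hw => by
          rw [norm_mul, norm_pow]
          exact mul_le_mul_of_nonneg_left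
            (pow_le_pow_left₀ (norm_nonneg w) (mem_ball_zero_iff.1 hw).le _) (norm_nonneg _)
    exact (h.differentiableAt
      (isOpen_ball.mem_nhds (mem_ball_zero_iff.2 hr1))).differentiableWithinAt
  -- the composite function is differentiable beyond the closed disc
  set h : ℂ → ℂ := fun w => if φ w ∈ ball (1 : ℂ) δ then g (φ w) else f (φ w) with hh
  set U : Set ℂ := φ ⁻¹' ball 1 δ ∪ φ ⁻¹' ball 0 1 with hU
  have hUo : IsOpen U :=
    (isOpen_ball.preimage hφd.continuous).union (isOpen_ball.preimage hφd.continuous)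
  have hhf : ∀ w, φ w ∈ ball (0 : ℂ) 1 → h w = f (φ w) := fun w hw => by
    simp only [hh]
    split_ifs with h1
    · exact hfg _ h1 (mem_ball_zero_iff.1 hw)
    · rfl
  have hhd : DifferentiableOn ℂ h U := by
    rintro w (hw | hw)
    · refine DifferentiableAt.differentiableWithinAt ?_
      refine ((hg.differentiableAt (isOpen_ball.mem_nhds hw)).comp w
        (hφd w)).congr_of_eventuallyEq ?_
      filter_upwards [(isOpen_ball.preimage hφd.continuous).mem_nhds hw] with v hv
      simp only [hh, Function.comp_apply]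
      exact if_pos hv
    · refine DifferentiableAt.differentiableWithinAt ?_
      refine ((hfd.differentiableAt (isOpen_ball.mem_nhds hw)).comp w
        (hφd w)).congr_of_eventuallyEq ?_
      filter_upwards [(isOpen_ball.preimage hφd.continuous).mem_nhds hw] with v hv
      exact hhf v hv
  have hcover : closedBall (0 : ℂ) 1 ⊆ U := by
    intro w hw
    rw [mem_closedBall, dist_zero_right] at hw
    by_cases h1 : w = 1
    · refine Or.inl ?_
      simp only [Set.mem_preimage, hφ, h1, one_pow, one_mul]
      norm_num [hδ]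
    · refine Or.inr (mem_ball_zero_iff.2 ?_)
      have h2 : ‖1 + w‖ < 2 := by
        have hsq : ‖w‖ ^ 2 ≤ 1 := pow_le_one₀ (norm_nonneg w) hw
        refine lt_of_pow_lt_pow_left₀ 2 (by norm_num) ?_
        rw [Complex.sq_norm, Complex.normSq_apply] at hsq ⊢
        simp only [Complex.add_re, Complex.one_re, Complex.add_im, Complex.one_im, zero_add]
        have hre : w.re < 1 := by
          by_contra hre
          push Not at hre
          refine h1 (Complex.ext ?_ ?_)
          · simp only [Complex.one_re]; nlinarith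
          · simp only [Complex.one_im]; nlinarith
        nlinarith
      simp only [hφ, norm_mul, norm_pow, norm_div, Complex.norm_ofNat]
      exact lt_of_le_of_lt (mul_le_of_le_one_left (by positivity) (pow_le_one₀ (norm_nonneg w) hw))
        (by linarith)
  obtain ⟨e, he, hsub⟩ :=
    (isCompact_closedBall (0 : ℂ) 1).exists_cthickening_subset_open hUo hcover
  rw [cthickening_closedBall he.le zero_le_one] at hsub
  set R : ℝ≥0 := ⟨e + 1, by linarith⟩ with hR
  have hball := (hhd.mono hsub).hasFPowerSeriesOnBall (c := (0 : ℂ)) (R := R)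
    (by rw [← NNReal.coe_pos]; show (0 : ℝ) < e + 1; linarith)
  -- the series in `w`
  set idx : (Σ k, Fin (n k + 1)) → ℕ := fun s => p * n s.1 + s.2 with hidx
  have hinj : Function.Injective idx := by
    rintro ⟨j, i⟩ ⟨k, l⟩ hjk
    simp only [hidx] at hjk
    have hi := i.isLt
    have hl := l.isLt
    obtain rfl : j = k := by
      rcases lt_trichotomy j k with h1 | h1 | h1
      · have := hblock j k h1
        rw [add_mul, one_mul] at this
        omega
      · exact h1
      · have := hblock k j h1
        rw [add_mul, one_mul] at this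
        omega
    simp only [Sigma.mk.injEq, heq_eq_eq, true_and]
    exact Fin.ext (by omega)
  set term : (Σ k, Fin (n k + 1)) → ℂ := fun s =>
    c s.1 * ((n s.1).choose s.2 / 2 ^ n s.1) with hterm
  set B : ℕ → ℂ := Function.extend idx term 0 with hB
  have hnorm : ∀ (r : ℝ) (k : ℕ),
      ∑ i : Fin (n k + 1), ‖term ⟨k, i⟩‖ * r ^ idx ⟨k, i⟩ =
        ‖c k‖ * (r ^ p * ((1 + r) / 2)) ^ n k := fun r k => by
    rw [expand, mul_sum]
    refine sum_congr rfl fun i _ => ?_
    simp only [hterm, hidx, norm_mul, norm_div, norm_pow, Complex.norm_natCast,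
      Complex.norm_ofNat]
    ring
  have hsummable : ∀ r : ℝ, 0 ≤ r →
      (Summable (fun s => ‖term s‖ * r ^ idx s) ↔
        Summable fun k => ‖c k‖ * (r ^ p * ((1 + r) / 2)) ^ n k) := fun r hr => by
    rw [summable_sigma_of_nonneg fun s => by positivity]
    simp only [tsum_fintype, hnorm]
    exact and_iff_right fun k => (hasSum_fintype _).summable
  have hsum : ∀ w : ℂ, ‖w‖ < 1 → HasSum (fun m => B m * w ^ m) (h w) := by
    intro w hw
    have hr : ‖w‖ ^ p * ((1 + ‖w‖) / 2) < 1 :=
      mul_lt_one_of_nonneg_of_lt_one_left (by positivity) (pow_lt_one₀ (norm_nonneg w) hw hp.ne')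
        (by linarith)
    have hs : Summable fun s => term s * w ^ idx s := by
      refine Summable.of_norm ?_
      simp only [norm_mul, norm_pow]
      exact (hsummable _ (norm_nonneg w)).2 (hconv _ (by positivity) hr)
    have hφw : φ w ∈ ball (0 : ℂ) 1 := by
      refine mem_ball_zero_iff.2 (lt_of_le_of_lt ?_ hr)
      simp only [hφ, norm_mul, norm_pow, norm_div, Complex.norm_ofNat]
      gcongr
      exact (norm_add_le _ _).trans_eq (by rw [norm_one])
    have h1 : HasSum (fun s => term s * w ^ idx s) (h w) := by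
      rw [hhf w hφw]
      have h2 : ∑' s, term s * w ^ idx s = f (φ w) := by
        rw [hs.tsum_sigma]
        refine tsum_congr fun k => ?_
        rw [tsum_fintype]
        simp only [hφ, expand, mul_sum, hterm, hidx, mul_assoc]
      exact h2 ▸ hs.hasSum
    have e1 : (fun m => B m * w ^ m) = Function.extend idx (fun s => term s * w ^ idx s) 0 := by
      funext m
      by_cases hm : ∃ s, idx s = m
      · obtain ⟨s, rfl⟩ := hm
        rw [hinj.extend_apply, hB, hinj.extend_apply]
      · rw [Function.extend_apply' _ _ _ hm, hB, Function.extend_apply' _ _ _ hm]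
        simp
    rw [e1]
    exact (hasSum_extend_zero hinj).2 h1
  set q := FormalMultilinearSeries.ofScalars ℂ B with hq
  have hhalf : HasFPowerSeriesOnBall h q 0 ((1 / 2 : ℝ≥0) : ℝ≥0∞) := by
    refine ⟨q.le_radius_of_summable_norm ?_, by simp, fun {y} hy => ?_⟩
    · simp only [hq, FormalMultilinearSeries.ofScalars_norm]
      have h1 := (hsum ((1 / 2 : ℝ) : ℂ) (by norm_num)).summable.norm
      simpa [norm_mul, norm_pow] using h1
    · rw [zero_add]
      have hy' : ‖y‖ < 1 := by
        rw [eball_coe, mem_ball_zero_iff] at hy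
        push_cast at hy
        linarith
      simpa [hq, FormalMultilinearSeries.ofScalars_apply_eq, smul_eq_mul, mul_comm] using
        hsum y hy'
  have heq := hball.hasFPowerSeriesAt.eq_formalMultilinearSeries hhalf.hasFPowerSeriesAt
  rw [heq] at hball
  -- absolute convergence at a point beyond `1`
  set r : ℝ := e / 2 + 1 with hr
  have hr1 : 1 < r := by linarith
  set r' : ℝ≥0 := ⟨r, by linarith⟩ with hr'
  have hrR : (r' : ℝ≥0∞) < q.radius := by
    refine lt_of_lt_of_le ?_ hball.r_le
    rw [ENNReal.coe_lt_coe, ← NNReal.coe_lt_coe]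
    show r < e + 1
    linarith
  have hB' : Summable fun m => ‖B m‖ * r ^ m := by
    have := q.summable_norm_mul_pow hrR
    simp only [hq, FormalMultilinearSeries.ofScalars_norm] at this
    exact this
  have hT : Summable fun s => ‖term s‖ * r ^ idx s :=
    (hB'.comp_injective hinj).congr fun s => by
      simp only [Function.comp_apply, hB, hinj.extend_apply]
  refine hdiv _ ?_ ((hsummable r (by linarith)).1 hT)
  exact one_lt_mul_of_le_of_lt (one_le_pow₀ hr1.le) (by linarith)

/-- **Hadamard's gap theorem.** -/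
theorem no_continuation {δ : ℝ} (hδ : 0 < δ) (hmono : StrictMono n)
    (hgap : ∀ k, (1 + δ) * (n k : ℝ) ≤ n (k + 1))
    (hconv : ∀ r : ℝ, 0 ≤ r → r < 1 → Summable fun k => ‖c k‖ * r ^ n k)
    (hdiv : ∀ r : ℝ, 1 < r → ¬Summable fun k => ‖c k‖ * r ^ n k)
    {ζ : ℂ} (hζ : ‖ζ‖ = 1) {ρ : ℝ} (hρ : 0 < ρ) {g : ℂ → ℂ}
    (hg : DifferentiableOn ℂ g (ball ζ ρ))
    (hfg : ∀ z ∈ ball ζ ρ, ‖z‖ < 1 → g z = ∑' k, c k * z ^ n k) : False := by
  obtain ⟨p, hp⟩ := exists_nat_gt (2 / δ)
  rw [div_lt_iff₀ hδ] at hp
  have hp0 : 0 < p := Nat.pos_of_ne_zero fun h => by simp [h] at hp; linarith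
  have hblock : ∀ j k, j < k → (p + 1) * n j < p * n k := fun j k hjk => by
    refine lt_of_lt_of_le ?_ (Nat.mul_le_mul_left p (hmono.monotone (Nat.succ_le_of_lt hjk)))
    rcases Nat.eq_zero_or_pos (n j) with h | h
    · rw [h, mul_zero]
      exact Nat.mul_pos hp0 (lt_of_le_of_lt (Nat.zero_le _) (hmono j.lt_succ_self))
    · have h1 : (1 : ℝ) ≤ n j := by exact_mod_cast h
      have h2 := mul_le_mul_of_nonneg_left (hgap j) (Nat.cast_nonneg p)
      have h3 : ((p + 1) * n j : ℕ) < ((p * n (j + 1) : ℕ) : ℝ) := by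
        push_cast
        nlinarith
      exact_mod_cast h3
  have hmap : ∀ z : ℂ, z ∈ ball (1 : ℂ) ρ → ζ * z ∈ ball ζ ρ := fun z hz => by
    rw [mem_ball, Complex.dist_eq] at hz ⊢
    rwa [← mul_sub_one, norm_mul, hζ, one_mul]
  refine no_continuation_one (c := fun k => c k * ζ ^ n k) hp0 hblock (fun r h0 h1 => ?_)
    (fun r h1 => ?_) hρ (g := fun z => g (ζ * z)) ?_ fun z hz h1 => ?_
  · simpa [norm_mul, norm_pow, hζ] using hconv r h0 h1
  · simpa [norm_mul, norm_pow, hζ] using hdiv r h1
  · exact hg.comp ((differentiable_id.const_mul ζ).differentiableOn) fun z hz => hmap z hz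
  · rw [hfg _ (hmap z hz) (by rwa [norm_mul, hζ, one_mul])]
    exact tsum_congr fun k => by rw [mul_pow]; ring

end FA.HadamardGap

end
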